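/-
S44, block V (owner helper104): `NodeV` from six sub-nodes.

  NodeEigen  : `ModularRepOfLevel N` gives a nonzero eigenvector in the Kummer model `E.W N p`
  NodeEmbed  : (Boston-Lenstra-Ribet) a nonzero eigenvector gives a `G_ℚ`-equivariant embedding
               `E[p] → E.W N p` with image in the eigenspace
  NodeNorm   : the two norm maps to level `M'` preserve eigenvectors
  NodeOld    : a nonzero eigenvector at level `M'` gives `ModularRepOfLevel M'`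
  NodeBasis  : a basis of `E[p]` adapted to the inertia group at `p` (`p ∣ abc`)
  NodeNonEis : the eigensystem of an irreducible `E[p]` is not Eisenstein
-/
import Fermat.Agent.S44.Top
import Fermat.Agent.S36.Norm.Kum

set_option autoImplicit false

noncomputable section

namespace Fermat.Agent.S44.V

open ModularCurve AlgebraicCurve Fermat.Agent.S24 Fermat.Agent.GAL
open WeierstrassCurve WeierstrassCurve.Affine WeierstrassCurve.Affine.Point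
open Fermat.Agent.S36.Norm (N1 N2)

/-- `x ∈ E.W N p` is an eigenvector of all `T_ℓ` (`ℓ` prime, good for `W`, `ℓ ∤ S`) with eigenvalue
`a_ℓ(W)` modulo `p`. -/
def IsEig (P : FreyPackage) (W : WeierstrassCurve ℤ) (N S : ℕ) (x : E.W N P.p) : Prop :=
  ∀ (ℓ : ℕ) [NeZero ℓ], ℓ.Prime → W.IsGoodPrimeFor ℓ → ¬ ℓ ∣ S →
    ∀ (H : E.HeckeOp N ℓ) (a : ℕ), (a : ZMod P.p) = ((W.apOfModel ℓ : ℤ) : ZMod P.p) →
      H.TW P.p x = a • x

/-- **Node Eigen** (faithfulness of the Hecke action on `Hom(Γ₀(N), 𝔽_p)` + socle lemma). -/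
def NodeEigen : Prop :=
  ∀ (P : FreyPackage) (N : ℕ) [NeZero N], P.p ∣ N → P.ModularRepOfLevel N →
    ∃ W : WeierstrassCurve ℤ, W.IsIntegralModelOf P.freyCurve ∧
      ∃ x : E.W N P.p, x ≠ 0 ∧ IsEig P W N N x

/-- **Node Embed** (Eichler-Shimura + Cayley-Hamilton for Frobenius on `E[p]` + Frobenius density +
Boston-Lenstra-Ribet). -/
def NodeEmbed : Prop :=
  ∀ (P : FreyPackage) (N : ℕ) [NeZero N], P.p ∣ N →
    GaloisRepIsIrreducible (K := AlgebraicClosure ℚ) ℚ P.freyCurve P.p →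
    ∀ W : WeierstrassCurve ℤ, W.IsIntegralModelOf P.freyCurve →
      ∀ x : E.W N P.p, x ≠ 0 → IsEig P W N N x →
        ∃ ι : S13.Vp P →+ E.W N P.p, Function.Injective ι ∧
          (∀ (σ : GQ) (y : S13.Vp P), ι (σ • y) = E.rho N P.p σ (ι y)) ∧
          ∀ y : S13.Vp P, IsEig P W N N (ι y)

/-- **Node Norm**: the norm maps along `α_p` and `β_p` are Hecke equivariant (`p ∤ M'`). -/
def NodeNorm : Prop :=
  ∀ (P : FreyPackage) (W : WeierstrassCurve ℤ) (M' : ℕ) [NeZero M'], ¬ P.p ∣ M' →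
    ∀ x : E.W (M' * P.p) P.p, IsEig P W (M' * P.p) (M' * P.p) x →
      IsEig P W M' (M' * P.p) (N1 M' P.p P.p x) ∧ IsEig P W M' (M' * P.p) (N2 M' P.p P.p x)

/-- **Node Old** (Deligne-Serre lifting, files of S49). -/
def NodeOld : Prop :=
  ∀ (P : FreyPackage) (W : WeierstrassCurve ℤ) (M' : ℕ) [NeZero M'],
    W.IsIntegralModelOf P.freyCurve →
    ∀ y : E.W M' P.p, y ≠ 0 → IsEig P W M' (M' * P.p) y → P.ModularRepOfLevel M'

/-- **Node Basis**: `E[p]` is "ordinary" at `p ∣ abc`. -/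
def NodeBasis : Prop :=
  ∀ (P : FreyPackage), (P.p : ℤ) ∣ P.a * P.b * P.c →
    GaloisRepIsIrreducible (K := AlgebraicClosure ℚ) ℚ P.freyCurve P.p →
    ∀ W : WeierstrassCurve ℤ, W.IsIntegralModelOf P.freyCurve →
    ∀ A : ValuationSubring Qb, A.LiesOverPrime P.p →
      ∃ x₀ x₁ : S13.Vp P,
        (∀ i j : ℕ, i • x₀ + j • x₁ = 0 → P.p ∣ i ∧ P.p ∣ j) ∧
        (∀ σ ∈ Iner A, ∀ m : ℕ, (∀ ζ : Qb, ζ ^ P.p = 1 → σ ζ = ζ ^ m) → σ • x₀ = m • x₀) ∧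
        (∀ σ ∈ Iner A, ∃ m : ℕ, σ • x₁ = x₁ + m • x₀)

/-- **Node NonEis**. -/
def NodeNonEis : Prop :=
  ∀ (P : FreyPackage), GaloisRepIsIrreducible (K := AlgebraicClosure ℚ) ℚ P.freyCurve P.p →
    ∀ W : WeierstrassCurve ℤ, W.IsIntegralModelOf P.freyCurve →
      ∀ S : ℕ, S ≠ 0 → P.p ∣ S →
        ∃ ℓ : ℕ, ℓ.Prime ∧ W.IsGoodPrimeFor ℓ ∧ ¬ ℓ ∣ S ∧
          ((W.apOfModel ℓ : ℤ) : ZMod P.p) ≠ (ℓ : ZMod P.p) + 1

theorem nodeV_of (hEig : NodeEigen) (hEmb : NodeEmbed) (hNorm : NodeNorm) (hOld : NodeOld)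
    (hBas : NodeBasis) (hNE : NodeNonEis) : NodeV := by
  intro P M' _ hcond hirr hmod A hA
  have hpN : P.p ∣ M' * P.p := Dvd.intro_left M' rfl
  have hpM : ¬ P.p ∣ M' := by
    rintro ⟨c, rfl⟩
    exact hcond.sq_not_dvd P.pp ⟨c, by ring⟩
  obtain ⟨W, hW, x, hx0, hxe⟩ := hEig P (M' * P.p) hpN hmod
  obtain ⟨ι, hinj, hequi, heig⟩ := hEmb P (M' * P.p) hpN hirr W hW x hx0 hxe
  by_cases hold : ∃ y : S13.Vp P, N1 M' P.p P.p (ι y) ≠ 0 ∨ N2 M' P.p P.p (ι y) ≠ 0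
  · left
    obtain ⟨y, hy | hy⟩ := hold
    · exact hOld P W M' hW _ hy (hNorm P W M' hpM _ (heig y)).1
    · exact hOld P W M' hW _ hy (hNorm P W M' hpM _ (heig y)).2
  · right
    push Not at hold
    obtain ⟨x₀, x₁, hind, hg₀, hg₁⟩ := hBas P (hcond.p_dvd_abc hpN) hirr W hW A hA
    obtain ⟨u₀, hu₀⟩ := E.cls_surjective (ι x₀)
    obtain ⟨u₁, hu₁⟩ := E.cls_surjective (ι x₁)
    refine ⟨W, u₀, u₁, hW, ?_⟩
    refine
      { indep := ?_, gal₀ := ?_, gal₁ := ?_, stab := ?_, hecke := ?_, newα₀ := ?_, newβ₀ := ?_,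
        newα₁ := ?_, newβ₁ := ?_, nonEis := ?_ }
    · intro i j hij
      apply hind i j
      apply hinj
      rw [map_add, map_nsmul, map_nsmul, ← hu₀, ← hu₁, hij, _root_.map_zero]
    · intro σ hσ m hm
      rw [hu₀, ← hequi, hg₀ σ hσ m hm, map_nsmul]
    · intro σ hσ
      obtain ⟨m, hm⟩ := hg₁ σ hσ
      exact ⟨m, by rw [hu₀, hu₁, ← hequi, hm, map_add, map_nsmul]⟩
    · rintro σ ⟨hσ, hfix⟩
      exact ⟨hσ, by rw [hu₀, ← hequi, hfix], by rw [hu₁, ← hequi, hfix]⟩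
    · intro ℓ _ hℓ hgood hℓN H a ha
      exact ⟨by rw [hu₀]; exact heig x₀ ℓ hℓ hgood hℓN H a ha,
        by rw [hu₁]; exact heig x₁ ℓ hℓ hgood hℓN H a ha⟩
    · exact (Fermat.Agent.S36.Norm.N1_cls_eq_zero_iff M' P.p P.p u₀).1 (by rw [hu₀]; exact (hold x₀).1)
    · exact (Fermat.Agent.S36.Norm.N2_cls_eq_zero_iff M' P.p P.p u₀).1 (by rw [hu₀]; exact (hold x₀).2)
    · exact (Fermat.Agent.S36.Norm.N1_cls_eq_zero_iff M' P.p P.p u₁).1 (by rw [hu₁]; exact (hold x₁).1)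
    · exact (Fermat.Agent.S36.Norm.N2_cls_eq_zero_iff M' P.p P.p u₁).1 (by rw [hu₁]; exact (hold x₁).2)
    · obtain ⟨ℓ, hℓ, hgood, hℓS, hne⟩ := hNE P hirr W hW (2 * (M' * P.p))
        (mul_ne_zero two_ne_zero (NeZero.ne _)) (Dvd.dvd.mul_left hpN 2)
      exact ⟨ℓ, hℓ, fun h => hℓS (h ▸ Dvd.intro _ rfl), hgood,
        fun h => hℓS (Dvd.dvd.mul_left h 2), hne⟩

end Fermat.Agent.S44.V

end
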