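/-
S44, block V (architect helper104), node Eigen: an eigenform of level `N` congruent to `E` gives a
nonzero eigenvector in the Kummer model `E.W N p` (faithfulness of the Hecke action on
`Hom(Γ₀(N), 𝔽_p)` + socle lemma).
-/
import Fermat.Agent.S44.V.Top
import Fermat.Agent.S36.Defs
import Fermat.Agent.Lib.HeckeHom.Faithful
import Fermat.Agent.S29.Eigen
import Fermat.Agent.S29.Socle

set_option autoImplicit false

noncomputable section

namespace Fermat.Agent.S44.V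

open ModularCurve AlgebraicCurve Fermat.Agent.S24 Fermat.Agent.GAL
open CuspForm CongruenceSubgroup
open Fermat.Agent.Lib.HeckeHom Fermat.Agent.S29.Eigen
open Fermat.Agent.S16.Lift (homPE card_homPE)

local notation "Zbar" => integralClosure ℤ ℂ

theorem nodeEigen (hM : S36.MultStatement) : NodeEigen := by
  intro P N _ hpN hmod
  obtain ⟨f, W, 𝔪, hf, hW, h𝔪, hp𝔪, hcong⟩ := hmod
  refine ⟨W, hW, ?_⟩
  have hp : P.p.Prime := P.pp
  obtain ⟨mult, hmult⟩ := hM N P.p hp.pos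
  have hic : IsIntegrallyClosed Zbar := IsIntegrallyClosed.of_isIntegrallyClosedIn Zbar ℂ
  let χ : heckeAlgebra N 2 (∅ : Set ℕ) →+* Zbar := eigenCharZ hf ∅
  let θ : MvPolynomial ℕ ℤ →+* Zbar ⧸ 𝔪 :=
    (Ideal.Quotient.mk 𝔪).comp (MvPolynomial.aeval fun ℓ => χ (tOf N ∅ ℓ)).toRingHom
  letI := moduleHA N (∅ : Set ℕ) P.p
  have hfin : Finite (homPE N (ZMod P.p)) := by
    apply Nat.finite_of_card_ne_zero
    rw [card_homPE N P.p hp.pos]
    exact (pow_pos hp.pos _).ne'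
  have hnt : Nontrivial (Zbar ⧸ 𝔪) := Ideal.Quotient.nontrivial_iff.2 h𝔪.ne_top
  obtain ⟨y, hy0, hy⟩ := Fermat.Agent.S29.Socle.exists_ne_zero_killed
    (M := homPE N (ZMod P.p)) (RingHom.ker θ) (RingHom.ker_ne_top θ) (by
      intro Q hQ
      have h1 := aeval_mem_span_of_forall_smul_eq_zero N (∅ : Set ℕ) P.p hp.pos χ Q hQ
      rw [RingHom.mem_ker]
      refine Ideal.Quotient.eq_zero_iff_mem.2 ?_
      exact (Ideal.span_singleton_le_iff_mem 𝔪).2 hp𝔪 h1)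
  refine ⟨mult.symm y, fun h => hy0 ?_, ?_⟩
  · rw [← mult.apply_symm_apply y, h, map_zero]
  intro ℓ _ hℓ hgood hℓN H a ha
  have hℓp : ℓ ≠ P.p := fun h => hℓN (h ▸ hpN)
  obtain ⟨a', ha', hmem⟩ := hcong ℓ hℓ hgood hℓN hℓp
  have hχ : χ (tOf N ∅ ℓ) = a' := by
    apply Subtype.ext
    rw [tOf_eq N ∅ hℓ hℓN (Set.notMem_empty ℓ), coe_eigenCharZ, eigenChar_T, ha']
  have hdvd : ((W.apOfModel ℓ : ℤ) : Zbar) - ((a : ℕ) : Zbar) ∈ 𝔪 := by
    have h1 : ((P.p : ℕ) : ℤ) ∣ W.apOfModel ℓ - (a : ℤ) := by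
      rw [← ZMod.intCast_zmod_eq_zero_iff_dvd]
      push_cast
      rw [ha, sub_self]
    obtain ⟨c, hc⟩ := h1
    have h2 : ((W.apOfModel ℓ : ℤ) : Zbar) - ((a : ℕ) : Zbar) = (P.p : Zbar) * (c : Zbar) := by
      have := congrArg (fun z : ℤ => (z : Zbar)) hc
      push_cast at this
      exact this
    rw [h2]
    exact 𝔪.mul_mem_right _ hp𝔪
  have hker : (MvPolynomial.X ℓ - (a : MvPolynomial ℕ ℤ)) ∈ RingHom.ker θ := by
    rw [RingHom.mem_ker]
    refine Ideal.Quotient.eq_zero_iff_mem.2 ?_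
    have h3 : (MvPolynomial.aeval fun ℓ => χ (tOf N ∅ ℓ)).toRingHom
        (MvPolynomial.X ℓ - (a : MvPolynomial ℕ ℤ)) =
        (a' - ((W.apOfModel ℓ : ℤ) : Zbar)) + (((W.apOfModel ℓ : ℤ) : Zbar) - ((a : ℕ) : Zbar)) := by
      rw [map_sub, map_natCast]
      show MvPolynomial.aeval (fun ℓ => χ (tOf N ∅ ℓ)) (MvPolynomial.X ℓ) - _ = _
      rw [MvPolynomial.aeval_X, hχ]
      ring
    rw [h3]
    exact 𝔪.add_mem hmem hdvd
  have hXy : (MvPolynomial.X ℓ : MvPolynomial ℕ ℤ) • y = a • y := by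
    have h4 := hy _ hker
    rw [sub_smul, Nat.cast_smul_eq_nsmul, sub_eq_zero] at h4
    exact h4
  apply mult.injective
  apply Subtype.ext
  rw [hmult ℓ hℓ hℓN H (mult.symm y), mult.apply_symm_apply, map_nsmul, mult.apply_symm_apply,
    ← hXy, coe_X_smul N ∅ P.p hℓ hℓN (Set.notMem_empty ℓ)]

end Fermat.Agent.S44.V

end
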