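/-
S44, block V: the norm along `β_q` commutes with `T_ℓ` on the Kummer classes, WITHOUT `q ∣ N`.
Trick: go up to level `N q q`, where `q` divides the level; one gets
`(normBeta (T y)) ^ q = (T (normBeta y)) ^ q`, and a `q`-th root of unity of the function field is a
constant, hence an `n`-th power.
-/
import Fermat.Agent.S36.Norm.Main
import Fermat.Agent.S36.Norm.AuxBeta
import Fermat.Agent.S36.Norm.Degree
import Fermat.Agent.GAL.E.Exists
import Fermat.Agent.GAL.E.QExp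
import Fermat.Agent.GAL.E.Main

set_option autoImplicit false

noncomputable section

namespace Fermat.Agent.S44.V

open ModularCurve AlgebraicCurve Fermat.Agent.S24 Fermat.Agent.GAL
open Fermat.Agent.S36.Norm (N1 N2)
open Fermat.Agent.S36.Norm

/-- (i) the two norms commute (both are the norm along the same composite). -/
theorem NormBeta.normBeta_normAlpha (N q : ℕ) [NeZero N] [NeZero q] (z : FN (N * q * q)) :
    normBeta N q (E.normAlpha (N * q) q z) = E.normAlpha N q (normBeta (N * q) q z) := by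
  have hcomp : (inc (dvd_mul_right (N * q) q)).toRingHom.comp
        (vv q (dvd_refl (N * q))).toRingHom =
      (vv q (dvd_refl (N * q * q))).toRingHom.comp (inc (dvd_mul_right N q)).toRingHom := by
    refine RingHom.ext fun x => ?_
    show inc (dvd_mul_right (N * q) q) (vv q (dvd_refl (N * q)) x) =
      vv q (dvd_refl (N * q * q)) (inc (dvd_mul_right N q) x)
    rw [inc_vv, vv_inc]
  rw [normBeta_eq_nm_vv N q, normAlpha_eq_nm_inc (N * q) q, normAlpha_eq_nm_inc N q,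
    normBeta_eq_nm_vv (N * q) q, ← nm_comp, ← nm_comp, hcomp]

/-- (ii) -/
theorem NormBeta.normAlpha_inc (N q : ℕ) [NeZero N] [NeZero q] (hq : q.Prime) (y : FN (N * q)) :
    E.normAlpha (N * q) q (inc (dvd_mul_right (N * q) q) y) = y ^ q := by
  rw [normAlpha_eq_nm_inc (N * q) q]
  have h := nm_map (inc (dvd_mul_right (N * q) q)).toRingHom y
  rw [dg_inc_of_dvd hq (Dvd.intro_left N rfl)] at h
  exact h

/-- the two sides agree up to a `q`-th root of unity -/
theorem NormBeta.pow_eq_pow {N q ℓ : ℕ} [NeZero N] [NeZero q] [NeZero ℓ] (hq : q.Prime)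
    (hℓ : ℓ.Prime) (hℓN : ¬ ℓ ∣ N * q) (H : E.HeckeOp N ℓ) (H' : E.HeckeOp (N * q) ℓ)
    (y : FN (N * q)) :
    normBeta N q (H'.T y) ^ q = H.T (normBeta N q y) ^ q := by
  have hℓ2 : ¬ ℓ ∣ N * q * q := fun h =>
    (hℓ.dvd_mul.1 h).elim hℓN fun h' => hℓN (h'.mul_left N)
  have hℓ0 : ¬ ℓ ∣ N := fun h => hℓN (h.mul_right q)
  have hc : Nat.Coprime ℓ q := (Nat.Prime.coprime_iff_not_dvd hℓ).2 fun h => hℓN (h.mul_left N)
  obtain ⟨H''⟩ := E.nonempty_heckeOp (N * q * q) ℓ hℓ hℓ2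
  have e0 : H.T = E.heckeF N ℓ := HeckeOp_T_eq_heckeF (E.qExpand_heckeF N ℓ hℓ hℓ0) H
  have e1 : H'.T = E.heckeF (N * q) ℓ := HeckeOp_T_eq_heckeF (E.qExpand_heckeF (N * q) ℓ hℓ hℓN) H'
  have e2 : H''.T = E.heckeF (N * q * q) ℓ :=
    HeckeOp_T_eq_heckeF (E.qExpand_heckeF (N * q * q) ℓ hℓ hℓ2) H''
  -- (iv), (vi)
  have h4 : ∀ z : FN (N * q * q),
      E.normAlpha (N * q) q (H''.T z) = H'.T (E.normAlpha (N * q) q z) := fun z => by
    rw [e1, e2]; exact normAlpha_heckeF (N * q) q ℓ hℓ hℓ2 z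
  have h6 : ∀ z : FN (N * q), E.normAlpha N q (H'.T z) = H.T (E.normAlpha N q z) := fun z => by
    rw [e0, e1]; exact normAlpha_heckeF N q ℓ hℓ hℓN z
  -- (v)
  have h5 : ∀ z : FN (N * q * q),
      normBeta (N * q) q (H''.T z) = H'.T (normBeta (N * q) q z) := fun z =>
    normBeta_T (N * q) q ℓ hq (Dvd.intro_left N rfl) hc H' H'' z
  set Y : FN (N * q * q) := inc (dvd_mul_right (N * q) q) y with hY
  calc normBeta N q (H'.T y) ^ q = normBeta N q (H'.T (y ^ q)) := by rw [map_pow, map_pow]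
    _ = normBeta N q (H'.T (E.normAlpha (N * q) q Y)) := by
        rw [hY, NormBeta.normAlpha_inc N q hq y]
    _ = normBeta N q (E.normAlpha (N * q) q (H''.T Y)) := by rw [h4]
    _ = E.normAlpha N q (normBeta (N * q) q (H''.T Y)) := NormBeta.normBeta_normAlpha N q _
    _ = E.normAlpha N q (H'.T (normBeta (N * q) q Y)) := by rw [h5]
    _ = H.T (E.normAlpha N q (normBeta (N * q) q Y)) := h6 _
    _ = H.T (normBeta N q (E.normAlpha (N * q) q Y)) := by rw [NormBeta.normBeta_normAlpha N q]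
    _ = H.T (normBeta N q (y ^ q)) := by rw [hY, NormBeta.normAlpha_inc N q hq y]
    _ = H.T (normBeta N q y) ^ q := by rw [map_pow, map_pow]

/-- a root of unity of the function field is an `n`-th power -/
theorem NormBeta.exists_pow_eq_of_pow_eq_one {N n q : ℕ} (hn : 0 < n) (hq : q ≠ 0) (c : FN N)
    (hc : c ^ q = 1) : ∃ w : FN N, c = w ^ n := by
  have hint : IsIntegral Kbar c :=
    ⟨Polynomial.X ^ q - Polynomial.C 1, Polynomial.monic_X_pow_sub_C 1 hq, by simp [hc]⟩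
  have hdeg := IsAlgClosed.degree_eq_one_of_irreducible Kbar (minpoly.irreducible hint)
  obtain ⟨c₀, hc₀⟩ := minpoly.mem_range_of_degree_eq_one Kbar c hdeg
  obtain ⟨w, hw⟩ := IsAlgClosed.exists_pow_nat_eq c₀ hn
  exact ⟨algebraMap Kbar (FN N) w, by rw [← map_pow, hw, hc₀]⟩

theorem N2_TW' {N n q ℓ : ℕ} [NeZero N] [NeZero q] [NeZero ℓ] (hn : 0 < n) (hq : q.Prime)
    (hℓ : ℓ.Prime) (hℓN : ¬ ℓ ∣ N * q) (H : E.HeckeOp N ℓ) (H' : E.HeckeOp (N * q) ℓ)
    (x : E.W (N * q) n) : N2 N n q (H'.TW n x) = H.TW n (N2 N n q x) := by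
  obtain ⟨u, rfl⟩ := E.cls_surjective x
  rw [E.HeckeOp.TW_cls, N2_cls, N2_cls, E.HeckeOp.TW_cls]
  apply E.cls_eq_of_mul_inv_mem
  set y : FN (N * q) := ((u : (FN (N * q))ˣ) : FN (N * q)) with hy
  have hy0 : y ≠ 0 := Units.ne_zero _
  have hb0 : H.T (normBeta N q y) ≠ 0 := by
    have : IsUnit (H.T (normBeta N q y)) :=
      ((Units.isUnit (u : (FN (N * q))ˣ)).map (normBeta N q)).map H.T
    exact this.ne_zero
  have hpow := NormBeta.pow_eq_pow hq hℓ hℓN H H' y
  obtain ⟨w, hw⟩ := NormBeta.exists_pow_eq_of_pow_eq_one (N := N) hn hq.ne_zero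
    (normBeta N q (H'.T y) * (H.T (normBeta N q y))⁻¹) (by
      rw [mul_pow, inv_pow, hpow, mul_inv_cancel₀ (pow_ne_zero _ hb0)])
  apply E.mem_pows_of_eq_pow (w := w)
  rw [← hw, Subgroup.coe_mul, Subgroup.coe_inv, Units.val_mul, Units.val_inv_eq_inv_val]
  rfl

end Fermat.Agent.S44.V

end
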