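/-
S44, block V (architect helper104), node `NodeOld` (task S44-V-OLD, helper122):
a nonzero eigenvector at level `M'` in the Kummer model gives `ModularRepOfLevel M'`
(Deligne-Serre lifting with the lemmas of S49).
-/
import Fermat.Agent.S44.V.Top
import Fermat.Agent.S36.Defs
import Fermat.Agent.Lib.HeckeHom.Faithful
import Fermat.Agent.S49.Basic
import Fermat.Agent.S49.EigenLift
import Fermat.Agent.S49.Eigenform
import Fermat.Agent.S49.LyingOver

set_option autoImplicit false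
set_option linter.style.haveILetI false

noncomputable section

namespace Fermat.Agent.S44.V

open ModularCurve AlgebraicCurve Fermat.Agent.S24 Fermat.Agent.GAL
open WeierstrassCurve WeierstrassCurve.Affine WeierstrassCurve.Affine.Point
open CongruenceSubgroup CuspForm
open Fermat.Agent.Lib.HeckeHom Fermat.Agent.S49
open Fermat.Agent.S16.Lift (homPE)

/-- The annihilator of `z` in the full Hecke algebra, acting on `Hom(Γ₀(M'), ℤ/p)`. -/
def oldAnn (M' p : ℕ) [NeZero M'] (z : homPE M' (ZMod p)) : Ideal (heckeAlgebra M' 2 ∅) where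
  carrier := {t | actMod M' ∅ p t z = 0}
  add_mem' := by
    intro a b ha hb
    simp only [Set.mem_ofPred_eq] at *
    rw [map_add, LinearMap.add_apply, ha, hb, add_zero]
  zero_mem' := by
    simp only [Set.mem_ofPred_eq]
    rw [_root_.map_zero, LinearMap.zero_apply]
  smul_mem' := by
    intro c x hx
    simp only [Set.mem_ofPred_eq, smul_eq_mul] at *
    rw [map_mul, Module.End.mul_apply, hx, _root_.map_zero]

theorem mem_oldAnn {M' p : ℕ} [NeZero M'] {z : homPE M' (ZMod p)} {t : heckeAlgebra M' 2 ∅} :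
    t ∈ oldAnn M' p z ↔ actMod M' ∅ p t z = 0 := Iff.rfl

theorem nodeOld (hH : S36.HeckeOpStatement) (hM : S36.MultStatement) : NodeOld := by
  intro P W M' _ hW y hy heig
  haveI : FiniteDimensional ℂ (CuspForm (Gamma0 M') 2) := finiteDimensional_cuspForm
  haveI : Module.Finite ℤ (heckeAlgebra M' 2 ∅) := finite_heckeAlgebra M' ∅
  obtain ⟨mult, hmult⟩ := hM M' P.p P.hppos
  set z : homPE M' (ZMod P.p) := mult y with hz
  have hz0 : z ≠ 0 := by
    intro h
    apply hy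
    apply mult.injective
    rw [← hz, h, _root_.map_zero]
  -- the annihilator is a proper ideal
  have hne : oldAnn M' P.p z ≠ ⊤ := by
    intro h
    have h1 : (1 : heckeAlgebra M' 2 ∅) ∈ oldAnn M' P.p z := h ▸ Submodule.mem_top
    rw [mem_oldAnn, map_one, Module.End.one_apply] at h1
    exact hz0 h1
  obtain ⟨𝔪, h𝔪, hle⟩ := Ideal.exists_le_maximal _ hne
  haveI : 𝔪.IsPrime := h𝔪.isPrime
  have hp𝔪 : ((P.p : ℕ) : heckeAlgebra M' 2 ∅) ∈ 𝔪 := by
    apply hle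
    rw [mem_oldAnn, map_natCast]
    have h1 : ((P.p : ℕ) : Module.End ℤ (homPE M' (ZMod P.p))) z = P.p • z := by
      rw [← nsmul_one, LinearMap.smul_apply, Module.End.one_apply]
    rw [h1]
    exact nsmul_homPE_eq_zero M' P.p z
  have hT : ∀ (ℓ : ℕ) (hℓ : ℓ.Prime) (hℓN : ¬ ℓ ∣ M'), W.IsGoodPrimeFor ℓ → ℓ ≠ P.p →
      ∀ a : ℕ, (a : ZMod P.p) = ((W.apOfModel ℓ : ℤ) : ZMod P.p) →
      heckeAlgebra.T hℓ hℓN (Set.notMem_empty ℓ) - (a : heckeAlgebra M' 2 ∅) ∈ 𝔪 := by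
    intro ℓ hℓ hℓN hgood hℓp a ha
    apply hle
    haveI : NeZero ℓ := ⟨hℓ.ne_zero⟩
    obtain ⟨H⟩ := hH M' ℓ hℓ hℓN
    have hℓS : ¬ ℓ ∣ M' * P.p := by
      intro h
      rcases (Nat.Prime.dvd_mul hℓ).1 h with h | h
      · exact hℓN h
      · exact hℓp ((Nat.prime_dvd_prime_iff_eq hℓ P.pp).1 h)
    have h1 := heig ℓ hℓ hgood hℓS H a ha
    have h2 := hmult ℓ hℓ hℓN H y
    rw [h1, map_nsmul, ← hz] at h2
    rw [mem_oldAnn, map_sub, LinearMap.sub_apply, sub_eq_zero, map_natCast]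
    apply Subtype.ext
    rw [coe_actMod_T, ← h2]
    congr 1
  obtain ⟨v, χ, hv, hχ, hker⟩ := exists_eigenvector_ker_le
    (heckeAlgebra M' 2 ∅).val.toRingHom Subtype.val_injective 𝔪
  obtain ⟨f, hf, hfχ⟩ := exists_normalizedEigenform_of_eigenvector v hv χ hχ
  obtain ⟨𝔪', hmax, hp', hm'⟩ := exists_maximal_over χ 𝔪 hker P.p P.pp hp𝔪
  refine ⟨f, W, 𝔪', hf, hW, hmax, hp', fun ℓ hℓ hgood hℓN hℓp => ?_⟩
  have hint : IsIntegral ℤ (χ (heckeAlgebra.T hℓ hℓN (Set.notMem_empty ℓ))) :=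
    (Algebra.IsIntegral.isIntegral (R := ℤ)
      (heckeAlgebra.T hℓ hℓN (Set.notMem_empty ℓ) : heckeAlgebra M' 2 ∅)).map χ.toIntAlgHom
  refine ⟨⟨_, hint⟩, (hfχ ℓ hℓ hℓN).symm, ?_⟩
  -- a natural number representing `a_ℓ(W)` modulo `p`
  haveI : NeZero P.p := ⟨P.pp.ne_zero⟩
  set a : ℕ := (((W.apOfModel ℓ : ℤ) : ZMod P.p)).val with ha
  have ha' : (a : ZMod P.p) = ((W.apOfModel ℓ : ℤ) : ZMod P.p) := ZMod.natCast_zmod_val _
  have h1 : (⟨_, hint⟩ : integralClosure ℤ ℂ) - (a : integralClosure ℤ ℂ) ∈ 𝔪' := by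
    refine hm' _ (hT ℓ hℓ hℓN hgood hℓp a ha') _ ?_
    simp
  have h2 : (a : integralClosure ℤ ℂ) - ((W.apOfModel ℓ : ℤ) : integralClosure ℤ ℂ) ∈ 𝔪' := by
    have h3 : ((P.p : ℕ) : ℤ) ∣ (a : ℤ) - W.apOfModel ℓ := by
      rw [← ZMod.intCast_zmod_eq_zero_iff_dvd ((a : ℤ) - W.apOfModel ℓ) P.p]
      push_cast
      rw [ha', sub_self]
    obtain ⟨c, hc⟩ := h3
    have h4 : (a : integralClosure ℤ ℂ) - ((W.apOfModel ℓ : ℤ) : integralClosure ℤ ℂ)
        = (P.p : integralClosure ℤ ℂ) * (c : integralClosure ℤ ℂ) := by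
      have := congrArg (Int.cast : ℤ → integralClosure ℤ ℂ) hc
      push_cast at this
      exact this
    rw [h4]
    exact Ideal.mul_mem_right _ _ hp'
  have := Ideal.add_mem _ h1 h2
  rwa [sub_add_sub_cancel] at this

end Fermat.Agent.S44.V

end
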