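/-
S44, block V (owner helper104): definitions shared by the files of the block.

* `rE P`      : the action of `G_ℚ` on `E[p]` as an `𝔽_p`-linear representation
* `NodeFrob`  : Cayley-Hamilton for Frobenius elements on `E[p]` (from `S41.A.frobenius_CH`)
-/
import Fermat.Agent.S44.V.Top
import Fermat.Agent.S44.V.Abs.Defs
import Fermat.Agent.S29.Cyclo

set_option autoImplicit false

noncomputable section

namespace Fermat.Agent.S44.V

open WeierstrassCurve WeierstrassCurve.Affine WeierstrassCurve.Affine.Point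

instance factPrime (P : FreyPackage) : Fact P.p.Prime := ⟨P.pp⟩

/-- The action of `G_ℚ` on `E[p]`, as a linear representation over `𝔽_p`. -/
def rE (P : FreyPackage) : GQ →* Module.End (ZMod P.p) (S13.Vp P) where
  toFun σ := (DistribSMul.toAddMonoidHom (S13.Vp P) σ).toZModLinearMap P.p
  map_one' := LinearMap.ext fun x => one_smul GQ x
  map_mul' σ τ := LinearMap.ext fun x => mul_smul σ τ x

@[simp] theorem rE_apply (P : FreyPackage) (σ : GQ) (x : S13.Vp P) : rE P σ x = σ • x := rfl

/-- **Cayley-Hamilton for Frobenius elements on `E[p]`.** -/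
def NodeFrob : Prop :=
  ∀ (P : FreyPackage) (W : WeierstrassCurve ℤ), W.IsIntegralModelOf P.freyCurve →
    ∀ ℓ : ℕ, ℓ.Prime → 5 ≤ ℓ → W.IsGoodPrimeFor ℓ → ℓ ≠ P.p →
      ∀ A : ValuationSubring Qb, A.LiesOverPrime ℓ → ∀ φ : GQ, A.IsFrobeniusAt φ ℓ →
        ∀ x : S13.Vp P, φ • φ • x - W.apOfModel ℓ • φ • x + (ℓ : ℤ) • x = 0

end Fermat.Agent.S44.V

end
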