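/-
S44, block V, section R1 (task S44-V-R1, helper157): basic facts on the Galois module `E[p]`.
-/
import Fermat.Agent.S44.V.Defs
import Fermat.Agent.S58.Torsion
import Fermat.Agent.S58.Involution
import Fermat.Agent.S13.FreyOpen
import Fermat.Agent.S13.FreyDefs
import Fermat.Agent.S29.Cyclo

set_option autoImplicit false

noncomputable section

namespace Fermat.Agent.S44.V

open WeierstrassCurve WeierstrassCurve.Affine WeierstrassCurve.Affine.Point
open Fermat.Agent.S44.V.Abs
open Fermat.Agent.S29.Cyclo (cyc)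

theorem card_Vp (P : FreyPackage) : Nat.card (S13.Vp P) = P.p ^ 2 :=
  S58.card_torsionBy (P.freyCurve⁄Qb) (S13.frey_Δ_ne_zero P) P.p P.pp.pos

theorem finrank_Vp (P : FreyPackage) : Module.finrank (ZMod P.p) (S13.Vp P) = 2 := by
  have hfin : Finite (S13.Vp P) := by
    apply Nat.finite_of_card_ne_zero
    rw [card_Vp]
    exact pow_ne_zero 2 P.pp.ne_zero
  have hmf : Module.Finite (ZMod P.p) (S13.Vp P) := Module.Finite.of_finite
  have h := Module.natCard_eq_pow_finrank (K := ZMod P.p) (V := S13.Vp P)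
  rw [Nat.card_zmod, card_Vp] at h
  exact (Nat.pow_right_injective P.pp.two_le h).symm

theorem irr_rE (P : FreyPackage)
    (hirr : GaloisRepIsIrreducible (K := AlgebraicClosure ℚ) ℚ P.freyCurve P.p) : Irr (rE P) :=
  fun U hU => hirr.2 U fun σ x hx => hU σ x hx

theorem level_rE (P : FreyPackage) :
    ∃ L : IntermediateField ℚ Qb, FiniteDimensional ℚ L ∧
      ∀ σ : GQ, (∀ x ∈ L, σ x = x) → rE P σ = 1 := by
  obtain ⟨L, hL, h⟩ := S13.frey_open P
  refine ⟨L, hL, fun σ hσ => LinearMap.ext fun x => ?_⟩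
  exact h σ ((IntermediateField.mem_fixingSubgroup_iff L σ).mpr hσ) x

theorem two_ne_zero_zmod (P : FreyPackage) : (2 : ZMod P.p) ≠ 0 := by
  intro h
  have h1 : ((2 : ℕ) : ZMod P.p) = 0 := by exact_mod_cast h
  rw [ZMod.natCast_eq_zero_iff] at h1
  have := Nat.le_of_dvd (by norm_num) h1
  have := P.hp5
  omega

/-- complex conjugation -/
theorem exists_conj (P : FreyPackage) :
    ∃ c : GQ, c * c = 1 ∧ ((cyc P.p c : (ZMod P.p)ˣ) : ZMod P.p) = -1 := by
  obtain ⟨c, hc, hc1⟩ := S58.exists_involution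
  refine ⟨c, hc, ?_⟩
  have hp2 : P.p ≠ 2 := by have := P.hp5; omega
  have h := Fermat.Agent.S29.Cyclo.cyc_eq_of_forall P.p c (P.p - 1) (fun x hx => by
    have h1 := S58.involution_zeta c hc hc1 P.pp hp2 x hx
    have hx0 : x ≠ 0 := by
      rintro rfl
      rw [zero_pow P.pp.ne_zero] at hx
      exact zero_ne_one hx
    have h2 : x ^ (P.p - 1) * x = 1 := by
      rw [← pow_succ, Nat.sub_add_cancel P.pp.one_le, hx]
    exact h1.trans (eq_inv_of_mul_eq_one_left h2).symm)
  rw [h, Nat.cast_sub P.pp.one_le, ZMod.natCast_self, Nat.cast_one, zero_sub]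

theorem Δ_ne_zero_of_isIntegralModelOf (P : FreyPackage) {W : WeierstrassCurve ℤ}
    (hW : W.IsIntegralModelOf P.freyCurve) : W.Δ ≠ 0 := by
  obtain ⟨C, hC⟩ := hW
  intro h0
  have h1 : (W.map (Int.castRingHom ℚ)).Δ = 0 := by rw [map_Δ, h0, _root_.map_zero]
  rw [← hC, variableChange_Δ] at h1
  have h2 : P.freyCurve.Δ ≠ 0 := by
    intro h3
    apply S13.frey_Δ_ne_zero P
    show (P.freyCurve.map (algebraMap ℚ Qb)).Δ = 0
    rw [map_Δ, h3, _root_.map_zero]
  rcases mul_eq_zero.mp h1 with h3 | h3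
  · exact absurd h3 (by simp)
  · exact h2 h3

end Fermat.Agent.S44.V

end
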