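/-
S44, block V (owner helper104), leaf R3 (this file: helper267): Frobenius density.
Common quadratic relations on `E[p]` and on a Galois module `V` with the same Frobenius relations.

`exists_quad_of` : the statement with the two inputs of leaf R1 (`level_rE`,
`Δ_ne_zero_of_isIntegralModelOf`) as explicit hypotheses.
-/
import Fermat.Agent.S44.V.Defs
import Fermat.Agent.S44.V.Rep
import Fermat.Agent.Lib.FrobDensity
import Fermat.Agent.Lib.QuadRel
import Fermat.Agent.S29.Assembly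

set_option autoImplicit false

noncomputable section

namespace Fermat.Agent.S44.V

open WeierstrassCurve WeierstrassCurve.Affine WeierstrassCurve.Affine.Point
open Fermat.Agent.S44.V.Abs
open Fermat.Agent.S29.Cyclo (cyc cycField cycField_finite cyc_frob cyc_eq_one_of_fixes)
open Fermat.Agent.Lib.QuadRel (lucasV pow_relation)

theorem exists_quad_of (hF : NodeFrob) (P : FreyPackage) (W : WeierstrassCurve ℤ)
    (hW : W.IsIntegralModelOf P.freyCurve) (hΔ : W.Δ ≠ 0)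
    (hlevE : ∃ L : IntermediateField ℚ Qb, FiniteDimensional ℚ L ∧
      ∀ σ : GQ, (∀ x ∈ L, σ x = x) → rE P σ = 1)
    (S : ℕ) (hS : S ≠ 0) (hpS : P.p ∣ S)
    {V : Type*} [AddCommGroup V] [Module (ZMod P.p) V] (r : GQ →* Module.End (ZMod P.p) V)
    (hlev : ∃ L : IntermediateField ℚ Qb, FiniteDimensional ℚ L ∧
      ∀ σ : GQ, (∀ x ∈ L, σ x = x) → r σ = 1)
    (hfrob : ∀ ℓ : ℕ, ℓ.Prime → W.IsGoodPrimeFor ℓ → ¬ ℓ ∣ S →
      ∀ A : ValuationSubring Qb, A.LiesOverPrime ℓ → ∀ φ : GQ, A.IsFrobeniusAt φ ℓ →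
        ∀ v : V, r φ (r φ v) - W.apOfModel ℓ • r φ v + (ℓ : ℤ) • v = 0) :
    ∃ t : GQ → ZMod P.p, Quad (rE P) (cyc P.p) t ∧ Quad r (cyc P.p) t := by
  obtain ⟨LE, hLEfin, hLE⟩ := hlevE
  obtain ⟨LV, hLVfin, hLV⟩ := hlev
  have hcfin : FiniteDimensional ℚ (cycField P.p) := cycField_finite P.p
  have hfin1 : FiniteDimensional ℚ (LE ⊔ LV : IntermediateField ℚ Qb) :=
    IntermediateField.finiteDimensional_sup LE LV
  have hfin : FiniteDimensional ℚ (LE ⊔ LV ⊔ cycField P.p : IntermediateField ℚ Qb) :=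
    IntermediateField.finiteDimensional_sup _ _
  set L : IntermediateField ℚ Qb := LE ⊔ LV ⊔ cycField P.p with hL
  have hLE' : LE ≤ L := le_sup_left.trans le_sup_left
  have hLV' : LV ≤ L := le_sup_right.trans le_sup_left
  have hLc' : cycField P.p ≤ L := le_sup_right
  have key : ∀ σ : GQ, ∃ t : ZMod P.p,
      (rE P σ * rE P σ - t • rE P σ +
        ((cyc P.p σ : (ZMod P.p)ˣ) : ZMod P.p) • (1 : Module.End (ZMod P.p) (S13.Vp P)) = 0) ∧
      (r σ * r σ - t • r σ +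
        ((cyc P.p σ : (ZMod P.p)ˣ) : ZMod P.p) • (1 : Module.End (ZMod P.p) V) = 0) := by
    intro σ
    obtain ⟨ℓ, A, φ, a, b, hℓ, hℓT, hA, hφ, -, hb⟩ :=
      Lib.FrobDensity.exists_frobenius_generator L σ (6 * (S * W.Δ.natAbs)).primeFactors
    have hn0 : 6 * (S * W.Δ.natAbs) ≠ 0 :=
      mul_ne_zero (by norm_num) (mul_ne_zero hS (Int.natAbs_ne_zero.2 hΔ))
    have hnd6 : ¬ ℓ ∣ 6 * (S * W.Δ.natAbs) := fun h => hℓT (Nat.mem_primeFactors.2 ⟨hℓ, h, hn0⟩)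
    have hnd : ¬ ℓ ∣ S * W.Δ.natAbs := fun h => hnd6 (h.mul_left _)
    have h5 : 5 ≤ ℓ := by
      have h6 : ¬ ℓ ∣ 6 := fun h => hnd6 (h.mul_right _)
      have h2 := hℓ.two_le
      by_contra hlt
      have : ℓ = 2 ∨ ℓ = 3 ∨ ℓ = 4 := by omega
      rcases this with rfl | rfl | rfl
      · exact h6 (by norm_num)
      · exact h6 (by norm_num)
      · exact absurd hℓ (by norm_num)
    have hℓS : ¬ ℓ ∣ S := fun h => hnd (h.mul_right _)
    have hgood : W.IsGoodPrimeFor ℓ := by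
      intro h
      exact hnd ((Int.natCast_dvd.1 h).mul_left _)
    have hne : ℓ ≠ P.p := by
      rintro rfl
      exact hℓS hpS
    have e1 : rE P σ = rE P φ ^ b :=
      S29.eq_pow_of_agree (rE P) L (fun τ h => hLE τ fun x hx => h x (hLE' hx)) hb
    have e2 : r σ = r φ ^ b :=
      S29.eq_pow_of_agree r L (fun τ h => hLV τ fun x hx => h x (hLV' hx)) hb
    have e3 : cyc P.p σ = cyc P.p φ ^ b :=
      S29.eq_pow_of_agree (cyc P.p) L
        (fun τ h => cyc_eq_one_of_fixes P.p fun x hx => h x (hLc' hx)) hb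
    have hc : ((cyc P.p φ : (ZMod P.p)ˣ) : ZMod P.p) = (ℓ : ZMod P.p) :=
      cyc_frob P.p hℓ hne A hA hφ
    have r1 : rE P φ * rE P φ - ((W.apOfModel ℓ : ℤ) : ZMod P.p) • rE P φ +
        (ℓ : ZMod P.p) • (1 : Module.End (ZMod P.p) (S13.Vp P)) = 0 := by
      ext1 x
      have h := hF P W hW ℓ hℓ h5 hgood hne A hA φ hφ x
      rw [← Int.cast_smul_eq_zsmul (ZMod P.p), ← Int.cast_smul_eq_zsmul (ZMod P.p) (ℓ : ℤ),
        Int.cast_natCast] at h
      simpa using h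
    have r2 : r φ * r φ - ((W.apOfModel ℓ : ℤ) : ZMod P.p) • r φ +
        (ℓ : ZMod P.p) • (1 : Module.End (ZMod P.p) V) = 0 := by
      ext1 x
      have h := hfrob ℓ hℓ hgood hℓS A hA φ hφ x
      rw [← Int.cast_smul_eq_zsmul (ZMod P.p), ← Int.cast_smul_eq_zsmul (ZMod P.p) (ℓ : ℤ),
        Int.cast_natCast] at h
      simpa using h
    refine ⟨lucasV ((W.apOfModel ℓ : ℤ) : ZMod P.p) (ℓ : ZMod P.p) b, ?_, ?_⟩
    · rw [e1, e3, Units.val_pow_eq_pow_val, hc]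
      exact pow_relation r1 b
    · rw [e2, e3, Units.val_pow_eq_pow_val, hc]
      exact pow_relation r2 b
  choose t ht using key
  exact ⟨t, fun σ => (ht σ).1, fun σ => (ht σ).2⟩

theorem exists_quad (hF : NodeFrob) (P : FreyPackage) (W : WeierstrassCurve ℤ)
    (hW : W.IsIntegralModelOf P.freyCurve) (S : ℕ) (hS : S ≠ 0) (hpS : P.p ∣ S)
    {V : Type*} [AddCommGroup V] [Module (ZMod P.p) V] (r : GQ →* Module.End (ZMod P.p) V)
    (hlev : ∃ L : IntermediateField ℚ Qb, FiniteDimensional ℚ L ∧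
      ∀ σ : GQ, (∀ x ∈ L, σ x = x) → r σ = 1)
    (hfrob : ∀ ℓ : ℕ, ℓ.Prime → W.IsGoodPrimeFor ℓ → ¬ ℓ ∣ S →
      ∀ A : ValuationSubring Qb, A.LiesOverPrime ℓ → ∀ φ : GQ, A.IsFrobeniusAt φ ℓ →
        ∀ v : V, r φ (r φ v) - W.apOfModel ℓ • r φ v + (ℓ : ℤ) • v = 0) :
    ∃ t : GQ → ZMod P.p, Quad (rE P) (cyc P.p) t ∧ Quad r (cyc P.p) t :=
  exists_quad_of hF P W hW (Δ_ne_zero_of_isIntegralModelOf P hW) (level_rE P) S hS hpS r hlev hfrob

end Fermat.Agent.S44.V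

end
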