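/-
S44, block V (architect helper104), node R4: the key lemma (Boston-Lenstra-Ribet for `E[p]`): any
Galois module killed by `p` with the same Frobenius relations contains `E[p]`.
-/
import Fermat.Agent.S44.V.Rep
import Fermat.Agent.S44.V.Rel
import Fermat.Agent.S44.V.Abs.Embed

set_option autoImplicit false

noncomputable section

namespace Fermat.Agent.S44.V

open WeierstrassCurve WeierstrassCurve.Affine WeierstrassCurve.Affine.Point
open Fermat.Agent.S44.V.Abs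
open Fermat.Agent.S29.Cyclo (cyc)

/-- an additive action on a `ℤ/n`-module is linear -/
def Key.lin (n : ℕ) {V : Type*} [AddCommGroup V] [Module (ZMod n) V] (r : GQ →* AddMonoid.End V) :
    GQ →* Module.End (ZMod n) V where
  toFun σ :=
    { toFun := fun x => r σ x
      map_add' := fun x y => map_add (r σ) x y
      map_smul' := fun c x => ZMod.map_smul (r σ) c x }
  map_one' := by
    refine LinearMap.ext fun x => ?_
    change r 1 x = x
    rw [map_one]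
    rfl
  map_mul' := by
    intro σ τ
    refine LinearMap.ext fun x => ?_
    change r (σ * τ) x = r σ (r τ x)
    rw [map_mul]
    rfl

theorem Key.lin_apply (n : ℕ) {V : Type*} [AddCommGroup V] [Module (ZMod n) V]
    (r : GQ →* AddMonoid.End V) (σ : GQ) (x : V) : Key.lin n r σ x = r σ x := rfl

theorem Key.key_aux (hF : NodeFrob) (P : FreyPackage)
    (hirr : GaloisRepIsIrreducible (K := AlgebraicClosure ℚ) ℚ P.freyCurve P.p)
    (W : WeierstrassCurve ℤ) (hW : W.IsIntegralModelOf P.freyCurve) (S : ℕ) (hS : S ≠ 0)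
    (hpS : P.p ∣ S) {V : Type*} [AddCommGroup V] [Module (ZMod P.p) V]
    (hV : ∃ v : V, v ≠ 0) (r : GQ →* AddMonoid.End V)
    (hlev : ∃ L : IntermediateField ℚ Qb, FiniteDimensional ℚ L ∧
      ∀ σ : GQ, (∀ x ∈ L, σ x = x) → r σ = 1)
    (hfrob : ∀ ℓ : ℕ, ℓ.Prime → W.IsGoodPrimeFor ℓ → ¬ ℓ ∣ S →
      ∀ A : ValuationSubring Qb, A.LiesOverPrime ℓ → ∀ φ : GQ, A.IsFrobeniusAt φ ℓ →
        ∀ v : V, r φ (r φ v) - W.apOfModel ℓ • r φ v + (ℓ : ℤ) • v = 0) :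
    ∃ ι : S13.Vp P →+ V, Function.Injective ι ∧ ∀ (σ : GQ) (y : S13.Vp P), ι (σ • y) = r σ (ι y) := by
  have : Nontrivial V := by
    obtain ⟨v, hv⟩ := hV
    exact ⟨⟨v, 0, hv⟩⟩
  obtain ⟨t, hqE, hqV⟩ := exists_quad hF P W hW S hS hpS (Key.lin P.p r)
    (by
      obtain ⟨L, hL, h⟩ := hlev
      refine ⟨L, hL, fun σ hσ => LinearMap.ext fun x => ?_⟩
      rw [Key.lin_apply, h σ hσ]
      rfl)
    (by
      intro ℓ hℓ hg hℓS A hA φ hφ v
      exact hfrob ℓ hℓ hg hℓS A hA φ hφ v)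
  obtain ⟨c, hc, hcyc⟩ := exists_conj P
  obtain ⟨ι, hinj, heq⟩ := Abs.exists_equivariant_injection (two_ne_zero_zmod P) (finrank_Vp P)
    (rE P) (Key.lin P.p r) (cyc P.p) t hqE hqV (irr_rE P hirr) c hc hcyc
  exact ⟨ι.toAddMonoidHom, hinj, fun σ y => heq σ y⟩

theorem key (hF : NodeFrob) (P : FreyPackage)
    (hirr : GaloisRepIsIrreducible (K := AlgebraicClosure ℚ) ℚ P.freyCurve P.p)
    (W : WeierstrassCurve ℤ) (hW : W.IsIntegralModelOf P.freyCurve) (S : ℕ) (hS : S ≠ 0)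
    (hpS : P.p ∣ S) {V : Type*} [AddCommGroup V] (hpV : ∀ v : V, P.p • v = 0)
    (hV : ∃ v : V, v ≠ 0) (r : GQ →* AddMonoid.End V)
    (hlev : ∃ L : IntermediateField ℚ Qb, FiniteDimensional ℚ L ∧
      ∀ σ : GQ, (∀ x ∈ L, σ x = x) → r σ = 1)
    (hfrob : ∀ ℓ : ℕ, ℓ.Prime → W.IsGoodPrimeFor ℓ → ¬ ℓ ∣ S →
      ∀ A : ValuationSubring Qb, A.LiesOverPrime ℓ → ∀ φ : GQ, A.IsFrobeniusAt φ ℓ →
        ∀ v : V, r φ (r φ v) - W.apOfModel ℓ • r φ v + (ℓ : ℤ) • v = 0) :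
    ∃ ι : S13.Vp P →+ V, Function.Injective ι ∧ ∀ (σ : GQ) (y : S13.Vp P), ι (σ • y) = r σ (ι y) :=
  @Key.key_aux hF P hirr W hW S hS hpS V _ (AddCommGroup.zmodModule hpV) hV r hlev hfrob

end Fermat.Agent.S44.V

end
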