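/-
S44, block V (owner helper104): `NodeNorm` from the Hecke equivariance of the two norm maps.
-/
import Fermat.Agent.S44.V.Top
import Fermat.Agent.S36.Norm.Main
import Fermat.Agent.GAL.E.Exists

set_option autoImplicit false

noncomputable section

namespace Fermat.Agent.S44.V

open ModularCurve AlgebraicCurve Fermat.Agent.S24 Fermat.Agent.GAL
open Fermat.Agent.S36.Norm (N1 N2)

/-- The statement of `N2_TW'` (file `NormBeta.lean`). -/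
def N2TWStatement : Prop :=
  ∀ {N n q ℓ : ℕ} [NeZero N] [NeZero q] [NeZero ℓ], 0 < n → q.Prime → ℓ.Prime → ¬ ℓ ∣ N * q →
    ∀ (H : E.HeckeOp N ℓ) (H' : E.HeckeOp (N * q) ℓ) (x : E.W (N * q) n),
      N2 N n q (H'.TW n x) = H.TW n (N2 N n q x)

theorem nodeNorm_of (h2 : N2TWStatement) : NodeNorm := by
  intro P W M' _ _ x hx
  have : NeZero P.p := ⟨P.pp.ne_zero⟩
  refine ⟨?_, ?_⟩
  · intro ℓ _ hℓ hgood hℓS H a ha
    obtain ⟨H'⟩ := E.nonempty_heckeOp (M' * P.p) ℓ hℓ hℓS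
    have hℓM : ¬ ℓ ∣ M' := fun h => hℓS (h.mul_right _)
    rw [← Fermat.Agent.S36.Norm.N1_TW hℓ hℓS (E.qExpand_heckeF M' ℓ hℓ hℓM)
      (E.qExpand_heckeF (M' * P.p) ℓ hℓ hℓS) H H' x, hx ℓ hℓ hgood hℓS H' a ha, map_nsmul]
  · intro ℓ _ hℓ hgood hℓS H a ha
    obtain ⟨H'⟩ := E.nonempty_heckeOp (M' * P.p) ℓ hℓ hℓS
    rw [← h2 P.pp.pos P.pp hℓ hℓS H H' x, hx ℓ hℓ hgood hℓS H' a ha, map_nsmul]

end Fermat.Agent.S44.V

end
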